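import Fermat.Statements.S02

set_option autoImplicit false
open FreyPackage

namespace Fermat.Agent.S02

/-- Build a Frey package from a coprime solution with `b` even. -/
theorem nonempty_of_coprime_even {a b c : ℤ} (ha : a ≠ 0) (hb : b ≠ 0) (hc : c ≠ 0)
    {p : ℕ} (pp : p.Prime) (hp5 : 5 ≤ p) (H : a ^ p + b ^ p = c ^ p)
    (hab : Int.gcd a b = 1) (hb2 : (2 : ℤ) ∣ b) : Nonempty FreyPackage := by
  have hpodd : Odd p := pp.odd_of_ne_two (by omega)
  have hgcd : ∀ x y : ℤ, Int.gcd x y = 1 → gcd x y = 1 := by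
    intro x y h
    rw [← Int.coe_gcd, h]; rfl
  have ha_odd : ¬ (2 : ℤ) ∣ a := by
    intro h2a
    have h2 : (2 : ℤ) ∣ ((Int.gcd a b : ℕ) : ℤ) := Int.dvd_coe_gcd h2a hb2
    rw [hab] at h2
    norm_num at h2
  have ha4 : a % 4 = 1 ∨ a % 4 = 3 := by omega
  rcases ha4 with h1 | h3
  · -- negate everything
    refine ⟨⟨-a, -b, -c, neg_ne_zero.2 ha, neg_ne_zero.2 hb, neg_ne_zero.2 hc, p, pp, hp5, ?_, ?_, ?_, ?_⟩⟩
    · rw [hpodd.neg_pow, hpodd.neg_pow, hpodd.neg_pow, ← H]; ring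
    · apply hgcd
      rw [Int.neg_gcd, Int.gcd_neg, hab]
    · have : ((-a : ℤ) : ZMod 4) = ((3 : ℤ) : ZMod 4) := by
        rw [ZMod.intCast_eq_intCast_iff_dvd_sub]
        omega
      simpa using this
    · have : ((-b : ℤ) : ZMod 2) = ((0 : ℤ) : ZMod 2) := by
        rw [ZMod.intCast_eq_intCast_iff_dvd_sub]
        omega
      simpa using this
  · refine ⟨⟨a, b, c, ha, hb, hc, p, pp, hp5, H, hgcd _ _ hab, ?_, ?_⟩⟩
    · have : ((a : ℤ) : ZMod 4) = ((3 : ℤ) : ZMod 4) := by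
        rw [ZMod.intCast_eq_intCast_iff_dvd_sub]
        omega
      simpa using this
    · have : ((b : ℤ) : ZMod 2) = ((0 : ℤ) : ZMod 2) := by
        rw [ZMod.intCast_eq_intCast_iff_dvd_sub]
        omega
      simpa using this

/-- Build a Frey package from a coprime solution. -/
theorem nonempty_of_coprime {a b c : ℤ} (ha : a ≠ 0) (hb : b ≠ 0) (hc : c ≠ 0)
    {p : ℕ} (pp : p.Prime) (hp5 : 5 ≤ p) (H : a ^ p + b ^ p = c ^ p)
    (hab : Int.gcd a b = 1) : Nonempty FreyPackage := by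
  have hpodd : Odd p := pp.odd_of_ne_two (by omega)
  have hp0 : p ≠ 0 := pp.ne_zero
  by_cases hb2 : (2 : ℤ) ∣ b
  · exact nonempty_of_coprime_even ha hb hc pp hp5 H hab hb2
  by_cases ha2 : (2 : ℤ) ∣ a
  · refine nonempty_of_coprime_even hb ha hc pp hp5 (by rw [add_comm]; exact H) ?_ ha2
    rw [Int.gcd_comm]; exact hab
  · -- both odd, so c is even; use (a, -c, -b)
    have hao : Odd a := by
      rcases Int.even_or_odd a with h | h
      · exact absurd (even_iff_two_dvd.1 h) ha2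
      · exact h
    have hbo : Odd b := by
      rcases Int.even_or_odd b with h | h
      · exact absurd (even_iff_two_dvd.1 h) hb2
      · exact h
    have hce : Even (c ^ p) := by
      rw [← H]
      exact (hao.pow).add_odd (hbo.pow)
    have hc2 : (2 : ℤ) ∣ c := by
      have : Even c := (Int.even_pow.1 hce).1
      exact even_iff_two_dvd.1 this
    have H' : a ^ p + (-c) ^ p = (-b) ^ p := by
      rw [hpodd.neg_pow, hpodd.neg_pow, ← H]; ring
    refine nonempty_of_coprime_even ha (neg_ne_zero.2 hc) (neg_ne_zero.2 hb) pp hp5 H' ?_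
      ((dvd_neg).2 hc2)
    rw [Int.gcd_neg]
    -- gcd a c = 1
    by_contra hne
    obtain ⟨q, hq, hqd⟩ := Nat.exists_prime_and_dvd hne
    have hqa : (q : ℤ) ∣ a := (Int.natCast_dvd_natCast.2 hqd).trans (Int.gcd_dvd_left a c)
    have hqc : (q : ℤ) ∣ c := (Int.natCast_dvd_natCast.2 hqd).trans (Int.gcd_dvd_right a c)
    have hqp : Prime (q : ℤ) := Nat.prime_iff_prime_int.1 hq
    have hqb : (q : ℤ) ∣ b := by
      have h1 : (q : ℤ) ∣ b ^ p := by
        have : b ^ p = c ^ p - a ^ p := by rw [← H]; ring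
        rw [this]
        exact dvd_sub (dvd_pow hqc hp0) (dvd_pow hqa hp0)
      exact hqp.dvd_of_dvd_pow h1
    have : (q : ℤ) ∣ ((Int.gcd a b : ℕ) : ℤ) := Int.dvd_coe_gcd hqa hqb
    rw [hab] at this
    have h1 := Int.natCast_dvd_natCast.1 this
    exact hq.one_lt.ne' (Nat.dvd_one.1 h1)

theorem result (a b c : ℤ) (ha : a ≠ 0) (hb : b ≠ 0) (hc : c ≠ 0) (p : ℕ) (pp : p.Prime) (hp5 : 5 ≤ p) (H : a ^ p + b ^ p = c ^ p) : Nonempty FreyPackage := by
  have hp0 : p ≠ 0 := pp.ne_zero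
  -- divide out by the gcd
  set d : ℕ := Int.gcd a b with hd
  have hdpos : 0 < d := Int.gcd_pos_of_ne_zero_left b ha
  have hd0 : (d : ℤ) ≠ 0 := by exact_mod_cast hdpos.ne'
  obtain ⟨a', ha'⟩ : (d : ℤ) ∣ a := Int.gcd_dvd_left a b
  obtain ⟨b', hb'⟩ : (d : ℤ) ∣ b := Int.gcd_dvd_right a b
  have hdc : (d : ℤ) ∣ c := by
    have h1 : (d : ℤ) ^ p ∣ c ^ p := by
      rw [← H]
      exact dvd_add (pow_dvd_pow_of_dvd ⟨a', ha'⟩ p) (pow_dvd_pow_of_dvd ⟨b', hb'⟩ p)
    exact (Int.pow_dvd_pow_iff hp0).1 h1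
  obtain ⟨c', hc'⟩ := hdc
  have ha'0 : a' ≠ 0 := by rintro rfl; simp at ha'; exact ha ha'
  have hb'0 : b' ≠ 0 := by rintro rfl; simp at hb'; exact hb hb'
  have hc'0 : c' ≠ 0 := by rintro rfl; simp at hc'; exact hc hc'
  have H' : a' ^ p + b' ^ p = c' ^ p := by
    have h1 : (d : ℤ) ^ p * (a' ^ p + b' ^ p) = (d : ℤ) ^ p * c' ^ p := by
      rw [mul_add, ← mul_pow, ← mul_pow, ← mul_pow, ← ha', ← hb', ← hc', H]
    exact mul_left_cancel₀ (pow_ne_zero p hd0) h1
  have hab' : Int.gcd a' b' = 1 := by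
    have h1 : Int.gcd a b = d * Int.gcd a' b' := by
      conv_lhs => rw [ha', hb']
      rw [Int.gcd_mul_left]
      simp
    have h2 : d * Int.gcd a' b' = d * 1 := by rw [← h1, mul_one]
    exact Nat.eq_of_mul_eq_mul_left hdpos h2
  exact nonempty_of_coprime ha'0 hb'0 hc'0 pp hp5 H' hab'

end Fermat.Agent.S02
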