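-- Statement S07: every weight-2 cusp form of level Γ₀(2) is zero.
-- Proof: the norm of such a form down to level one is a cusp form of weight
-- 2 * [SL(2, ℤ) : Γ₀(2)] ≤ 8 < 12, hence zero; so the form itself is zero.
import Fermat.Statements.S07

set_option autoImplicit false
open WeierstrassCurve WeierstrassCurve.Affine WeierstrassCurve.Affine.Point
open CuspForm ModularFormClass UpperHalfPlane
open ModularForm

namespace Fermat.Agent.S07

open scoped MatrixGroups
open Matrix.SpecialLinearGroup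

/-- Two elements of `SL(2, ℤ)` with the same first column modulo `2` lie in the same left coset
of `Γ₀(2)`. -/
theorem inv_mul_mem_gamma0_two (g g' : SL(2, ℤ)) (h0 : ((g 0 0 : ℤ) : ZMod 2) = (g' 0 0 : ℤ))
    (h1 : ((g 1 0 : ℤ) : ZMod 2) = (g' 1 0 : ℤ)) :
    g⁻¹ * g' ∈ CongruenceSubgroup.Gamma0 2 := by
  rw [CongruenceSubgroup.Gamma0_mem]
  rw [Matrix.SpecialLinearGroup.coe_mul, Matrix.mul_apply]
  simp only [Fin.sum_univ_two, Matrix.SpecialLinearGroup.SL2_inv_expl]
  simp only [Matrix.cons_val_zero, Matrix.cons_val_one, Matrix.cons_val', Matrix.cons_val_fin_one]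
  push_cast
  rw [← h0, ← h1]
  ring

/-- The first column modulo `2` of a chosen coset representative. -/
noncomputable def firstColMod2 (q : SL(2, ℤ) ⧸ CongruenceSubgroup.Gamma0 2) : ZMod 2 × ZMod 2 :=
  (((Quotient.out q : SL(2, ℤ)) 0 0 : ZMod 2), ((Quotient.out q : SL(2, ℤ)) 1 0 : ZMod 2))

theorem firstColMod2_injective : Function.Injective firstColMod2 := by
  intro q q' h
  have hmem := inv_mul_mem_gamma0_two (Quotient.out q) (Quotient.out q')
    (congrArg Prod.fst h) (congrArg Prod.snd h)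
  have := (QuotientGroup.eq (s := CongruenceSubgroup.Gamma0 2)).mpr hmem
  rw [QuotientGroup.out_eq', QuotientGroup.out_eq'] at this
  exact this

/-- The index of `Γ₀(2)` in `SL(2, ℤ)` is at most `4` (it is in fact `3`). -/
theorem gamma0_two_index_le : (CongruenceSubgroup.Gamma0 2).index ≤ 4 := by
  have h := Nat.card_le_card_of_injective firstColMod2 firstColMod2_injective
  have h4 : Nat.card (ZMod 2 × ZMod 2) = 4 := by
    rw [Nat.card_prod, Nat.card_zmod]
  rw [h4] at h
  exact h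

theorem gamma0_two_relIndex_le :
    Nat.card (𝒮ℒ ⧸ ((CongruenceSubgroup.Gamma0 2 : Subgroup SL(2, ℤ)) :
      Subgroup (GL (Fin 2) ℝ)).subgroupOf 𝒮ℒ) ≤ 4 := by
  have h : ((CongruenceSubgroup.Gamma0 2 : Subgroup SL(2, ℤ)) :
      Subgroup (GL (Fin 2) ℝ)).relIndex 𝒮ℒ = (CongruenceSubgroup.Gamma0 2).index := by
    rw [MonoidHom.range_eq_map, ← Subgroup.relIndex_comap,
      Subgroup.comap_map_eq_self_of_injective mapGL_injective, Subgroup.relIndex_top_right]
  have h' := gamma0_two_index_le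
  rw [← h] at h'
  exact h'

/-- The norm (to level one) of a cusp form on an arithmetic subgroup vanishes at `i∞`. -/
theorem norm_isZeroAtImInfty {𝒢 : Subgroup (GL (Fin 2) ℝ)} [𝒢.IsArithmetic] {k : ℤ}
    (f : CuspForm 𝒢 k) : IsZeroAtImInfty (ModularForm.norm 𝒮ℒ f) := by
  let _ := Fintype.ofFinite (𝒮ℒ ⧸ 𝒢.subgroupOf 𝒮ℒ)
  rw [ModularForm.coe_norm, IsZeroAtImInfty, Filter.ZeroAtFilter]
  have hfac : ∀ q : 𝒮ℒ ⧸ 𝒢.subgroupOf 𝒮ℒ,
      Filter.Tendsto (SlashInvariantForm.quotientFunc f q) atImInfty (nhds 0) := by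
    refine Quotient.forall.mpr ?_
    rintro ⟨r, ⟨γ, rfl⟩⟩
    have := CuspFormClass.zero_at_infty_slash f γ⁻¹
    rw [SL_slash, map_inv] at this
    exact this
  have hprod := tendsto_finsetProd (Finset.univ : Finset (𝒮ℒ ⧸ 𝒢.subgroupOf 𝒮ℒ))
    (fun q _ => hfac q)
  have hne : (Finset.univ : Finset (𝒮ℒ ⧸ 𝒢.subgroupOf 𝒮ℒ)).card ≠ 0 :=
    Finset.card_ne_zero.mpr Finset.univ_nonempty
  rw [Finset.prod_const, zero_pow hne] at hprod
  convert hprod using 1
  ext z
  simp [Finset.prod_apply]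

theorem result (f : CuspForm (CongruenceSubgroup.Gamma0 2) 2) : f = 0 := by
  have hzero := norm_isZeroAtImInfty f
  have hcoeff : (qExpansion 1 (ModularForm.norm 𝒮ℒ f)).coeff 0 = 0 := by
    rw [UpperHalfPlane.qExpansion_coeff_zero one_pos
      (ModularFormClass.analyticAt_cuspFunction_zero _ one_pos one_mem_strictPeriods_SL)
      (SlashInvariantFormClass.periodic_comp_ofComplex _ one_mem_strictPeriods_SL)]
    exact hzero.valueAtInfty_eq_zero
  have hk : (2 : ℤ) * Nat.card (𝒮ℒ ⧸ ((CongruenceSubgroup.Gamma0 2 : Subgroup SL(2, ℤ)) :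
      Subgroup (GL (Fin 2) ℝ)).subgroupOf 𝒮ℒ) < 12 := by
    have := gamma0_two_relIndex_le
    omega
  have hcusp : ModularForm.toCuspForm (ModularForm.norm 𝒮ℒ f) hcoeff = 0 :=
    rank_zero_iff_forall_zero.mp (CuspForm.rank_eq_zero_of_weight_lt_twelve hk) _
  have hnorm : ModularForm.norm 𝒮ℒ f = 0 := by
    ext z
    have := DFunLike.congr_fun hcusp z
    simpa using this
  have hf : (f : ℍ → ℂ) = 0 := (ModularForm.norm_eq_zero_iff 𝒮ℒ f).mp hnorm
  ext z
  exact congrFun hf z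

end Fermat.Agent.S07
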