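import Fermat.Statements.S13
import Fermat.Agent.S13.Asm.H11_Wire2
import Fermat.Agent.S13.L2.H8_L2bFinal

set_option autoImplicit false
open WeierstrassCurve WeierstrassCurve.Affine WeierstrassCurve.Affine.Point
open CuspForm ModularFormClass UpperHalfPlane
open FreyPackage

namespace Fermat.Agent.S13

theorem result (P : FreyPackage) (hred : ¬ GaloisRepIsIrreducible (K := AlgebraicClosure ℚ) ℚ P.freyCurve P.p) : HasGaloisStableCofixedLine (K := AlgebraicClosure ℚ) ℚ P.freyCurve P.p := by
  exact Fermat.Agent.S13.Asm.result_of_stL2b P (Fermat.Agent.S13.L2.H8.stL2b P) hred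

end Fermat.Agent.S13
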