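import Fermat.Statements.S14
import Fermat.Agent.S14x.Asm.H26_Wire
import Fermat.Agent.S14x.Glue.H24_Inst
import Fermat.Agent.S14x.AL.H20_R

set_option autoImplicit false
open ExtCitation

namespace Fermat.Agent.S14

theorem result {p : ℕ} [Fact p.Prime] (h3 : 3 ≤ p) :
    ExtCitation.ExtVanishingCts p := by
  exact Fermat.Agent.S14x.Asm.H26.extVanishingCts_of_open p h3 Fermat.Agent.S14x.Glue.stGLUE
    (Fermat.Agent.S14x.AL.h20_stR' p) (Fermat.Agent.S14x.LFN.Final.stD p)

end Fermat.Agent.S14
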