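import Fermat.Statements.S20
import Fermat.Agent.S20.H26_Wire
import Fermat.Agent.S24.H24_G3Final

set_option autoImplicit false
open CuspForm

namespace Fermat.Agent.S20

theorem result (N : ℕ) [NeZero N] :
    (Module.finrank ℂ (CuspForm (CongruenceSubgroup.Gamma0 N) 2) : ℚ) = ModularCurve.genusFormula N := by
  exact Wire.result_of_finite_counts N
    (fun c h0 h1 => Fermat.Agent.S24.G3.gen_final (RingHom.id ℂ) c h0 h1)
    (Fermat.Agent.S24.G3.zero_final (RingHom.id ℂ))
    (Fermat.Agent.S24.G3.one_final (RingHom.id ℂ))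

end Fermat.Agent.S20
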