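import Fermat.Statements.S21
import Fermat.Agent.S21.H11_Final
import Fermat.Agent.S20.H26_Wire
import Fermat.Agent.S24.H24_G3Final

set_option autoImplicit false
open ModularCurve

namespace Fermat.Agent.S21

theorem result (N : ℕ) [NeZero N] :
    Function.Injective (ModularCurve.periodHomPair N)
      ∧ LinearMap.range (ModularCurve.periodHomPair N)
          = ModularCurve.Period.parabolicHoms ℂ (CongruenceSubgroup.Gamma0 N) ℂ := by
  exact result_of_genus_le N
    (Fermat.Agent.S20.Wire.genusFormula_le_of_finite_counts N
      (fun c h0 h1 => Fermat.Agent.S24.G3.gen_final (RingHom.id ℂ) c h0 h1)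
      (Fermat.Agent.S24.G3.zero_final (RingHom.id ℂ))
      (Fermat.Agent.S24.G3.one_final (RingHom.id ℂ)))

end Fermat.Agent.S21
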