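import Fermat.Statements.S23
import Fermat.Agent.S23.H19_DescentForms
import Fermat.Agent.S23.H2_StepI
import Fermat.Agent.S23.H22_StepR
import Fermat.Agent.S23.H11_FractionRep

set_option autoImplicit false
open CuspForm

namespace Fermat.Agent.S23

theorem result (N : ℕ) [NeZero N] : CuspForm.HasIntegralStructure N 2 := by
  exact D.hasIntegralStructure_of_steps N 2
    (fun f σ => R5.stepR_of_rationalQuotient (rationalQuotient N) f σ)
    (fun f hf => StepI.mem_span_intLattice_of_rational f hf)

end Fermat.Agent.S23
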