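import Fermat.Statements.S16
import Fermat.Agent.S16x.Asm.H6_Wire
import Fermat.Agent.S16x.Conj.H20_Two

set_option autoImplicit false
open ModularCurve CuspForm
open ModularCurve

namespace Fermat.Agent.S16

theorem result
    (p : ℕ) [Fact p.Prime] :
    Nat.card (↥(heckeLatticeAlgebra p ∅) ⧸
        Ideal.map ((latticeRestrictHom p ∅).toRingHom.comp (heckeEvalForms p 2))
          (eisensteinIdeal p)) =
      eisensteinNumerator p :=
  Fermat.Agent.S16x.Asm.H6.h6_result_of_two p (Fermat.Agent.S16x.Conj.H20.stTwo p)

end Fermat.Agent.S16
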