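-- Statement S22 (row 21).
import Fermat.Statements.S22
import Fermat.Agent.S22.Abstract
import Fermat.Agent.S22.Trivial
import Fermat.Agent.S22.LatticeFG
import Fermat.Agent.S22.HeckeStable
import Fermat.Agent.S22.Separation

set_option autoImplicit false
open CuspForm

namespace Fermat.Agent.S22

theorem result (N : ℕ) [NeZero N] (k : ℤ) (S : Set ℕ) :
    Module.Finite ℤ (CuspForm.heckeAlgebra N k S) := by
  apply moduleFinite_heckeAlgebra_of_empty
  by_cases hk : k ≤ 1
  · haveI := subsingleton_cuspForm_of_le_one N hk
    exact moduleFinite_heckeAlgebra_of_subsingleton N k ∅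
  · obtain ⟨m, rfl⟩ : ∃ m : ℕ, k = (m : ℤ) + 2 := ⟨(k - 2).toNat, by omega⟩
    refine moduleFinite_adjoin_of_lattice (CuspForm.heckeGenerators N _ ∅) (perLattice N m)
      (perLattice_fg N m) (fun f hf => ?_) (perLattice_stable N m)
    refine per_separating f fun g hg i hi => ?_
    have := hf _ (perFun_mem_perLattice hg (X_pow_mem_IntPoly hi))
    simpa using this

end Fermat.Agent.S22
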