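import Fermat.Statements.S24
import Fermat.Agent.S24.H24_G3Final
import Fermat.Agent.S24.H25_Inputs
import Fermat.Agent.S24.H21_NormInf

set_option autoImplicit false
open ModularCurve

namespace Fermat.Agent.S24

/-- An embedding of the algebraic numbers into the complex numbers. -/
noncomputable def h21_embQbar : AlgebraicClosure ℚ →+* ℂ :=
  haveI : Algebra.IsAlgebraic ℚ (AlgebraicClosure ℚ) := AlgebraicClosure.isAlgebraic ℚ
  (IsAlgClosed.lift (R := ℚ) (S := AlgebraicClosure ℚ) (M := ℂ)).toRingHom

theorem result (N : ℕ) [NeZero N]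
    [AlgebraicCurve.HasCanonicalDivisor (K := AlgebraicClosure ℚ) (F := ↥(ModularCurve.modularFunctionFieldBar N))] :
    (AlgebraicCurve.genus (AlgebraicClosure ℚ) ↥(ModularCurve.modularFunctionFieldBar N) : ℚ)
      = ModularCurve.genusFormula N :=
  Final.genus_FK_eq_of_inputs
    (Final.inputs_of_places (K := AlgebraicClosure ℚ) h21_embQbar N
      (fun c h0 h1 => G3.gen_final h21_embQbar c h0 h1) (G3.zero_final h21_embQbar)
      (G3.one_final h21_embQbar) (Mer.card_places_inf h21_embQbar N))

end Fermat.Agent.S24
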