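import Fermat.Statements.S42
import Fermat.Agent.S42x.Asm.H15_Top
import Fermat.Agent.S42x.Heq.H26_HeckeAn
import Fermat.Agent.S37x.Move.H17_StSpec

set_option autoImplicit false
open FreyPackage

namespace Fermat.Agent.S42

theorem result (P : FreyPackage) :
    ∀ M : ℕ, 0 < M → P.EigenformResidualAttachmentAt M :=
  Fermat.Agent.S42x.Asm.H15.h15_s42_of P
    (fun M _ => Fermat.Agent.S42x.Heq.H26.stHeckeAn M P.p
      Fermat.Agent.S42x.Asm.H15.h15Emb (Fermat.Agent.S42x.Asm.H15.h15Zeta P.p))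
    (fun M _ => Fermat.Agent.S37x.Move.H17.h17_stSpec_final M P.p)

end Fermat.Agent.S42
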