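import Fermat.Statements.S49
import Fermat.Agent.S49.Hecke

set_option autoImplicit false
open CuspForm EisensteinWeightOne CongruenceSubgroup ModularFormClass
open FLT FLT.AbstractIntegralStructure

namespace Fermat.Agent.S49

theorem result
    {N : ℕ} [NeZero N] (h : CuspForm.HasIntegralBasis N) {a : ℕ → ℤ}
    (heig : FormalHecke.IsEigensystem
      (fun ℓ => if ℓ ∣ N then 0 else ((chiNegThree ℓ : ℤ) : ℤ)) a)
    (hreal : CuspForm.IsLatticeRealized N a) :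
    ∃ (f : CuspForm (Gamma0 N) 2) (_ : f.IsNormalizedEigenform)
      (𝔪' : Ideal (integralClosure ℤ ℂ)), 𝔪'.IsMaximal ∧
      ((3 : ℕ) : integralClosure ℤ ℂ) ∈ 𝔪' ∧
      ∀ (ℓ : ℕ) (_ : ℓ.Prime) (_ : ¬ ℓ ∣ N),
        ∃ c : integralClosure ℤ ℂ, (c : ℂ) = ModularFormClass.qCoeff f ℓ ∧
          c - (a ℓ : integralClosure ℤ ℂ) ∈ 𝔪' := by
  obtain ⟨f₀, -, af, haf, hbp⟩ := hreal
  have hcong : ∀ n, (3 : ℤ) ∣ af n - a n := fun n => by
    have := dvd_add (hbp n) (three_dvd_coeff_bridgeProduct_sub a n)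
    simpa using this
  -- a maximal ideal of the Hecke algebra containing the congruence ideal
  obtain ⟨𝔪, h𝔪max, h𝔪le⟩ := Ideal.exists_le_maximal _ (congIdeal_ne_top heig.1 haf hcong)
  have h𝔪prime : 𝔪.IsPrime := h𝔪max.isPrime
  have hfd : FiniteDimensional ℂ (CuspForm (Gamma0 N) 2) := finiteDimensional_cuspForm h
  -- an eigencharacter whose kernel lies below `𝔪`
  obtain ⟨χ, v, hv0, hχv, hker⟩ := exists_character_ker_le_prime (K := ℂ)
    (heckeAlgebra N 2 ∅).val.toRingHom Subtype.val_injective 𝔪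
  -- its values are algebraic integers
  have hint : ∀ t, χ t ∈ integralClosure ℤ ℂ := fun t =>
    (isIntegral_heckeAlgebra h t).map χ.toIntAlgHom
  let χ' : heckeAlgebra N 2 ∅ →+* integralClosure ℤ ℂ := χ.codRestrict _ hint
  have hχ' : ∀ t, ((χ' t : integralClosure ℤ ℂ) : ℂ) = χ t := fun _ => rfl
  -- lying over
  letI : Algebra (heckeAlgebra N 2 ∅) (integralClosure ℤ ℂ) := χ'.toAlgebra
  have hintegral : Algebra.IsIntegral (heckeAlgebra N 2 ∅) (integralClosure ℤ ℂ) :=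
    ⟨fun x => IsIntegral.tower_top (R := ℤ) (Algebra.IsIntegral.isIntegral x)⟩
  have hcomap : Ideal.comap (algebraMap (heckeAlgebra N 2 ∅) (integralClosure ℤ ℂ)) ⊥ ≤ 𝔪 := by
    intro t ht
    apply hker
    rw [Ideal.mem_comap, Ideal.mem_bot] at ht
    rw [RingHom.mem_ker, ← hχ' t]
    have : χ' t = 0 := ht
    rw [this]; rfl
  obtain ⟨Q, -, hQprime, hQ⟩ := Ideal.exists_ideal_over_prime_of_isIntegral 𝔪
    (⊥ : Ideal (integralClosure ℤ ℂ)) hcomap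
  obtain ⟨𝔪', h𝔪'max, hQ𝔪'⟩ := Ideal.exists_le_maximal Q hQprime.ne_top
  have hmap : ∀ t ∈ 𝔪, χ' t ∈ 𝔪' := fun t ht => hQ𝔪' (by
    rw [← hQ] at ht
    exact ht)
  -- the eigenform
  obtain ⟨g, hg, hgT⟩ := exists_normalizedEigenform_of_eigenvector hv0
    (fun ℓ hℓ hℓN => χ (heckeAlgebra.T hℓ hℓN (Set.notMem_empty ℓ)))
    (fun ℓ hℓ hℓN => hχv (heckeAlgebra.T hℓ hℓN (Set.notMem_empty ℓ)))
    (fun q hq hqN => ⟨χ (heckeAlgebra.U hq hqN (Set.notMem_empty q)),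
      hχv (heckeAlgebra.U hq hqN (Set.notMem_empty q))⟩)
  refine ⟨g, hg, 𝔪', h𝔪'max, ?_, ?_⟩
  · have := hmap _ (h𝔪le (natCast_three_mem_congIdeal haf))
    rwa [map_natCast] at this
  · intro ℓ hℓ hℓN
    refine ⟨χ' (heckeAlgebra.T hℓ hℓN (Set.notMem_empty ℓ)), ?_, ?_⟩
    · rw [hgT ℓ hℓ hℓN, hχ']
    · have := hmap _ (h𝔪le (heckeT_sub_mem_congIdeal heig haf hcong hℓ hℓN))
      rwa [map_sub, map_intCast] at this

end Fermat.Agent.S49
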