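-- Statement S51 (row 45): a semistable integral Weierstrass curve has an irreducible
-- mod-3 or mod-5 representation.  Proof: otherwise the curve gives a rational point
-- (s,t) on the plane model of X_0(15); the descent on y^2 = x(x+9)(x-16) leaves only
-- four such points, none of which is semistable at 5.
import Fermat.Statements.S51
import Fermat.Agent.S51.Assembly
import Fermat.Agent.S51.Descent
import Fermat.Agent.S51.H26_Five

set_option autoImplicit false
open WeierstrassCurve WeierstrassCurve.Affine WeierstrassCurve.Affine.Point
open CuspForm ModularFormClass UpperHalfPlane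
open WeierstrassCurve

namespace Fermat.Agent.S51

theorem result (W : WeierstrassCurve ℤ) (hΔ : W.Δ ≠ 0) (hW : W.IsSemistableModel) : W.ModRepIsIrreducible 3 ∨ W.ModRepIsIrreducible 5 := by
  refine assembly (fun x y h => ?_) H26.exists_s_of_not_irr_five_h26 W hΔ hW
  rcases Descent.E0_points x y h with h1 | h1 | h1 | h1 | h1
  · exact Or.inl h1
  · exact Or.inr (Or.inl h1)
  · exact Or.inr (Or.inr (Or.inl h1))
  · exact Or.inr (Or.inr (Or.inr (Or.inr h1)))
  · exact Or.inr (Or.inr (Or.inr (Or.inl h1)))

end Fermat.Agent.S51
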