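import Fermat.Statements.S53
import Fermat.Agent.S53.H28_Glue

set_option autoImplicit false
set_option autoImplicit false
open GaloisRep

namespace Fermat.Agent.S53

theorem result
    (𝒪 : Type) [CommRing 𝒪] [IsDomain 𝒪] [IsDiscreteValuationRing 𝒪]
    [IsAdicComplete (IsLocalRing.maximalIdeal 𝒪) 𝒪] [Finite (IsLocalRing.ResidueField 𝒪)]
    (ρbar : ResidualGaloisRep (IsLocalRing.ResidueField 𝒪))
    (𝒟 : ∀ ⦃A : Type⦄ [CommRing A] [IsLocalRing A] [Algebra 𝒪 A], GaloisRepAdic A → Prop)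
    (habs : ρbar.IsAbsolutelyIrreducible)
    (h𝒟 : GaloisRep.IsDeformationCondition 𝒪 𝒟)
    (hbar : 𝒟 (GaloisRepAdic.ofResidualGaloisRep ρbar))
    (hfin : GaloisRep.TangentFinite 𝒪 ρbar 𝒟) :
    Nonempty (GaloisRep.DeformationRingData 𝒪 ρbar 𝒟) := by
  obtain ⟨D⟩ := exists_rigidData ρbar habs
  obtain ⟨e, H⟩ := h28_levelHyp D h𝒟 hbar hfin
  obtain ⟨R, _, _, _, _, _, _, r, hr, hres, hNL, hT, hE, hG⟩ :=
    h28_exists_universal_framed D h𝒟 H
  exact Asm.nonempty_deformationRingData habs h𝒟 D.b (NLof D) (nlRes D) (nlMap D) (nlRig D)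
    (nlEx D) R hres r hr hNL hT hE hG

end Fermat.Agent.S53
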