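import Fermat.Statements.S54
import Fermat.Agent.S54.Frobenius

set_option autoImplicit false
open GaloisRep GaloisRep.DeformationRingData

namespace Fermat.Agent.S54

open Polynomial in
theorem pi_T_mem_range {R T : Type} [CommRing R] [IsLocalRing R] [CommRing T] [IsLocalRing T]
    (φ : R →+* T) (hφ : IsLocalHom φ) (ρ : GaloisRepAdic R) (ρ' : GaloisRepAdic T)
    (e : (ρ.baseChangeAlong φ hφ).IsEquiv ρ')
    (σ : AlgebraicClosure ℚ ≃ₐ[ℚ] AlgebraicClosure ℚ) (a b : T)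
    (h : LinearMap.charpoly (ρ'.ρ σ) = X ^ 2 - C a * X + C b) :
    a ∈ φ.range := by
  obtain ⟨e⟩ := e
  letI : Algebra R T := φ.toAlgebra
  have h1 : ρ'.ρ σ = e.toLinearEquiv.conj ((ρ.baseChangeAlong φ hφ).ρ σ) := by
    ext x
    rw [LinearEquiv.conj_apply_apply, e.map_apply, LinearEquiv.apply_symm_apply]
  have h2 : (ρ.baseChangeAlong φ hφ).ρ σ = (ρ.ρ σ).baseChange T := rfl
  have h3 : LinearMap.charpoly (ρ'.ρ σ) = (LinearMap.charpoly (ρ.ρ σ)).map φ := by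
    rw [h1, LinearEquiv.charpoly_conj, h2]
    exact LinearMap.charpoly_baseChange (ρ.ρ σ) T
  rw [h] at h3
  have h4 := congrArg (fun p => p.coeff 1) h3
  simp only [coeff_sub, coeff_add, coeff_X_pow, coeff_C_mul, coeff_X, coeff_C, coeff_map] at h4
  norm_num at h4
  refine ⟨-(LinearMap.charpoly (ρ.ρ σ)).coeff 1, ?_⟩
  rw [map_neg, ← h4, neg_neg]

theorem result {𝒪 : Type} [CommRing 𝒪] [IsDomain 𝒪] [IsDiscreteValuationRing 𝒪] [IsAdicComplete (IsLocalRing.maximalIdeal 𝒪) 𝒪] {ρbar : ResidualGaloisRep (IsLocalRing.ResidueField 𝒪)} {𝒟 : ∀ ⦃A : Type⦄ [CommRing A] [IsLocalRing A] [Algebra 𝒪 A], GaloisRepAdic A → Prop} (D : GaloisRep.DeformationRingData 𝒪 ρbar 𝒟) {N : ℕ} [NeZero N] {S : Set ℕ} {θ : CuspForm.heckeAlgebra N 2 S →+* IsLocalRing.ResidueField 𝒪} {T : Type} [CommRing T] [IsLocalRing T] [IsNoetherianRing T] [IsAdicComplete (IsLocalRing.maximalIdeal T) T] [Algebra 𝒪 T] [IsLocalHom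 (algebraMap 𝒪 T)] [Module.Finite 𝒪 T] [Module.Free 𝒪 T] (H : CuspForm.HeckeGaloisRepDatum N S 𝒪 θ T) (hS : ∀ q : ℕ, q.Prime → q ∣ N → q ∈ S) (h𝒟 : 𝒟 H.ρ) (hres : H.ρ.residual.IsEquiv (ρbar.baseChangeAlong (IsLocalRing.ResidueField.map (algebraMap 𝒪 T)))) : ∃ φ : D.R →ₐ[𝒪] T, Function.Surjective φ ∧ ∃ hφ : IsLocalHom (φ : D.R →+* T), (D.ρ.baseChangeAlong (φ : D.R →+* T) hφ).IsEquiv H.ρ := by
  obtain ⟨φ, ⟨hφ, he⟩, -⟩ := D.universal T H.residue_surjective H.ρ h𝒟 hres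
  refine ⟨φ, ?_, hφ, he⟩
  -- surjectivity
  have key : ∀ (x : Module.End ℂ (CuspForm (CongruenceSubgroup.Gamma0 N) 2))
      (hx : x ∈ Algebra.adjoin ℤ (CuspForm.heckeGenerators N 2 S)),
      H.π ⟨x, hx⟩ ∈ φ.range := by
    intro x hx
    induction hx using Algebra.adjoin_induction with
    | mem x hx =>
      rcases hx with ⟨ℓ, hℓ, hℓN, hℓS, rfl⟩ | ⟨q, hqN, hq, hqS, rfl⟩
      · obtain ⟨A, hA⟩ := exists_liesOverPrime ℓ hℓ
        obtain ⟨σ, hσ⟩ := exists_isFrobeniusAt A ℓ hℓ hA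
        have h := H.charpoly_frob ℓ hℓ hℓN hℓS A hA σ hσ
        obtain ⟨r, hr⟩ := pi_T_mem_range (φ : D.R →+* T) hφ D.ρ H.ρ he σ _ _ h
        exact ⟨r, hr⟩
      · exact absurd (hS q hq hqN) hqS
    | algebraMap r =>
      have : (⟨algebraMap ℤ _ r, Subalgebra.algebraMap_mem _ r⟩ : CuspForm.heckeAlgebra N 2 S)
          = algebraMap ℤ (CuspForm.heckeAlgebra N 2 S) r := rfl
      rw [this]
      refine ⟨algebraMap ℤ D.R r, ?_⟩
      simp
    | add x y hx hy hx' hy' =>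
      have : (⟨x + y, Subalgebra.add_mem _ hx hy⟩ : CuspForm.heckeAlgebra N 2 S)
          = ⟨x, hx⟩ + ⟨y, hy⟩ := rfl
      rw [this, map_add]
      exact Subalgebra.add_mem _ hx' hy'
    | mul x y hx hy hx' hy' =>
      have : (⟨x * y, Subalgebra.mul_mem _ hx hy⟩ : CuspForm.heckeAlgebra N 2 S)
          = ⟨x, hx⟩ * ⟨y, hy⟩ := rfl
      rw [this, map_mul]
      exact Subalgebra.mul_mem _ hx' hy'
  have hrange : φ.range = ⊤ := by
    rw [eq_top_iff, ← H.adjoin_range_π]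
    apply Algebra.adjoin_le
    rintro _ ⟨t, rfl⟩
    exact key t.1 t.2
  intro t
  have : t ∈ φ.range := hrange ▸ Algebra.mem_top
  exact this

end Fermat.Agent.S54
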